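import Fermat.Agent.S36.Haupt.TElem

/-!
# S45 / [HAUPT9] : modular units given by eta quotients, as elements of the function field of `X₀(N)`

Generic version of `S36/Haupt/{THol,TElem}.lean` : `D : EtaU M₀` is a function `E` on `ℍ` without zeros, invariant under `Γ₀(M₀)`,
holomorphic at `∞` with integral expansion `ser`, a power of which is a product of `Δ`-quotients.

* `D.el d N hd : FN N` (`M₀ * d ∣ N`) : the element `E(dτ)`, `coe = qExpand Kb d (castLS Kb ser)`;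
* `D.isIntegral_el`, `D.isIntegral_el_inv` : integral over `Kb[j]`.
-/

set_option autoImplicit false
set_option linter.unusedSectionVars false

open Complex Function Filter ModularForm ModularCurve Matrix.SpecialLinearGroup CongruenceSubgroup
open UpperHalfPlane hiding I
open scoped Real MatrixGroups Manifold Topology
open Fermat.Agent.S24 Fermat.Agent.S24.CPAlt Fermat.Agent.S28

noncomputable section

namespace Fermat.Agent.S45.L9

open Fermat.Agent.S36

local notation "𝕢" => Periodic.qParam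

/-- a modular unit of level `M₀`. -/
structure EtaU (M₀ : ℕ) where
  E : ℂ → ℂ
  ne : ∀ {z : ℂ}, 0 < z.im → E z ≠ 0
  smul : ∀ g : SL(2, ℤ), (M₀ : ℤ) ∣ g 1 0 → ∀ τ : ℍ, E ((g • τ : ℍ) : ℂ) = E τ
  φ : ℂ → ℂ
  eq : ∀ z : ℂ, E z = φ (𝕢 1 z)
  diff : DifferentiableOn ℂ φ (Metric.ball 0 1)
  ser : PowerSeries ℤ
  tay_eq : tay φ = ser.map (Int.castRingHom ℂ)
  k : ℕ
  hk : 0 < k
  X : ℕ → ℍ → ℂ
  pow_eq : ∀ (d : ℕ) [NeZero d] (τ : ℍ), E (scal d τ) ^ k = X d τ
  allU : ∀ {d N : ℕ} [NeZero N], M₀ * d ∣ N → AllU N (X d)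

namespace EtaU

variable {M₀ : ℕ} (D : EtaU M₀)

theorem aut (a b c d : ℤ) (hdet : a * d - b * c = 1) (hc : (M₀ : ℤ) ∣ c) {z : ℂ}
    (hz : 0 < z.im) : D.E (((a : ℂ) * z + b) / ((c : ℂ) * z + d)) = D.E z := by
  let g : SL(2, ℤ) := ⟨!![a, b; c, d], by rw [Matrix.det_fin_two_of]; exact hdet⟩
  have := D.smul g (show (M₀ : ℤ) ∣ c from hc) ⟨z, hz⟩
  rw [coe_smul_eq g] at this
  simpa [cd, g] using this

theorem mdiff_E : MDiff (fun τ : ℍ => D.E τ) := by
  have := mdiff_ofDisc D.diff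
  have e : (fun τ : ℍ => D.E τ) = ofDisc D.φ := by
    funext τ
    rw [D.eq]; rfl
  rw [e]; exact this

variable (d : ℕ) [NeZero d]

/-- `τ ↦ E(dτ)`. -/
def fD (τ : ℍ) : ℂ := D.E (scal d τ)

theorem fD_ne_zero (τ : ℍ) : D.fD d τ ≠ 0 := D.ne (scal d τ).im_pos

theorem mdiff_fD : MDiff (D.fD d) := mdiff_comp_scal d D.mdiff_E

theorem fD_smul (γ : SL(2, ℤ)) (hγ : ((M₀ * d : ℕ) : ℤ) ∣ γ 1 0) (τ : ℍ) :
    D.fD d (γ • τ) = D.fD d τ := by
  obtain ⟨c', hc'⟩ := hγ
  have hd0 : (d : ℂ) ≠ 0 := by exact_mod_cast NeZero.ne d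
  have hdet := sl2_det γ
  have h := D.aut (γ 0 0) (γ 0 1 * d) (M₀ * c') (γ 1 1) (by
    rw [hc'] at hdet
    push_cast at hdet
    linear_combination hdet) (Dvd.intro _ rfl) (scal d τ).im_pos
  have hcd : cd γ τ = ((((M₀ : ℤ) * c' : ℤ)) : ℂ) * ((scal d τ : ℍ) : ℂ) + (γ 1 1 : ℂ) := by
    rw [cd, hc', coe_scal]
    push_cast
    ring
  rw [fD, fD, ← h]
  congr 1
  rw [← hcd, coe_scal, coe_smul_eq, coe_scal]
  push_cast
  field_simp

/-- `E(dτ)` as a holomorphic function. -/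
def hol : Hol := ⟨D.fD d, D.mdiff_fD d⟩

/-- `1/E(dτ)` as a holomorphic function. -/
def holInv : Hol := ⟨fun τ : ℍ => (D.fD d τ)⁻¹, S28.mdiff_inv (D.mdiff_fD d) (D.fD_ne_zero d)⟩

theorem hol_apply (τ : ℍ) : (D.hol d : ℍ → ℂ) τ = D.fD d τ := rfl

theorem holInv_apply (τ : ℍ) : (D.holInv d : ℍ → ℂ) τ = (D.fD d τ)⁻¹ := rfl

theorem hol_mul_holInv : D.hol d * D.holInv d = 1 := by
  apply Subtype.ext
  funext τ
  exact mul_inv_cancel₀ (D.fD_ne_zero d τ)

variable {d} {N : ℕ} [NeZero N]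

theorem hol_mem_RN (hd : M₀ * d ∣ N) : D.hol d ∈ RN N := by
  refine ⟨fun γ hγ => ?_, fun g => ?_⟩
  · apply Subtype.ext
    funext τ
    rw [actHol_apply]
    exact D.fD_smul d γ⁻¹ ((Int.natCast_dvd_natCast.mpr hd).trans
      (int_dvd_of_mem_Gamma0 (inv_mem hγ))) τ
  · show ModG ((actHol g (D.hol d) : Hol) : ℍ → ℂ)
    apply modG_of_pow (k := D.k) D.hk
    have e : (fun τ => ((actHol g (D.hol d) : Hol) : ℍ → ℂ) τ ^ D.k)
        = fun τ => (D.X d) (g⁻¹ • τ) := by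
      funext τ
      rw [actHol_apply, hol_apply, fD, D.pow_eq]
    rw [e]
    exact modG_of_isU (D.allU hd g⁻¹)

theorem holInv_mem_RN (hd : M₀ * d ∣ N) : D.holInv d ∈ RN N := by
  refine ⟨fun γ hγ => ?_, fun g => ?_⟩
  · apply Subtype.ext
    funext τ
    rw [actHol_apply, holInv_apply, holInv_apply]
    rw [D.fD_smul d γ⁻¹ ((Int.natCast_dvd_natCast.mpr hd).trans
      (int_dvd_of_mem_Gamma0 (inv_mem hγ))) τ]
  · show ModG ((actHol g (D.holInv d) : Hol) : ℍ → ℂ)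
    apply modG_of_pow (k := D.k) D.hk
    have e : (fun τ => ((actHol g (D.holInv d) : Hol) : ℍ → ℂ) τ ^ D.k)
        = fun τ => (D.X d)⁻¹ (g⁻¹ • τ) := by
      funext τ
      rw [actHol_apply, holInv_apply, inv_pow, fD, D.pow_eq]
      rfl
    rw [e]
    exact modG_of_isU ((D.allU hd).inv g⁻¹)

/-! ### the element of the function field -/

/-- the formal expansion. -/
def lser : LaurentSeries ℤ := HahnSeries.ofPowerSeries ℤ ℤ D.ser

theorem ofPowerSeries_qExpansion_phi :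
    HahnSeries.ofPowerSeries ℤ ℂ (qExpansion 1 (ofDisc D.φ)) = castLS ℂ D.lser := by
  rw [qExpansion_ofDisc (continuousAt_of_diffOn D.diff), D.tay_eq, lser]
  exact (coeffMap_ofPowerSeries _ _).symm

variable (d)

theorem ofDisc_scal_mem : ofDisc D.φ ∘ scal d ∈ HolPer 1 := by
  have h := ofDisc_mem_HolPer D.diff
  exact ⟨mdiff_comp_scal d h.1, by simpa using periodic_comp_scal d (by simpa using h.2.1),
    isBoundedAtImInfty_comp_scal d h.2.2⟩

/-- `E(dτ)` as an element of `HolPer 1`. -/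
def per : HolPer 1 := ⟨ofDisc D.φ ∘ scal d, D.ofDisc_scal_mem d⟩

theorem inclHol_per : inclHol 1 (D.per d) = D.hol d := by
  apply Subtype.ext
  funext τ
  show ofDisc D.φ (scal d τ) = D.E (scal d τ)
  rw [D.eq]; rfl

theorem toMer_per :
    toMer 1 (algebraMap (HolPer 1) (MerPer 1) (D.per d)) = algebraMap Hol Mer (D.hol d) := by
  rw [toMer_algebraMap, inclHol_per]

theorem toLaurent_per :
    toLaurent 1 (algebraMap (HolPer 1) (MerPer 1) (D.per d))
      = coeffMap iotaK.toRingHom (qExpand Kb d (castLS Kb D.lser)) := by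
  rw [toLaurent_algebraMap]
  have h := ofDisc_mem_HolPer D.diff
  have h1 := ofPowerSeries_qExpansion_comp_scal d (f := ofDisc D.φ) (by simpa using h.2.1) h.1
    h.2.2
  rw [ofPowerSeries_qExpansion_phi] at h1
  rw [coeffMap_qExpand, coeffMap_iotaK_castLS, ← h1]
  simp [per]

variable (N) (hd : M₀ * d ∣ N)

include hd in
theorem qExpand_lser_mem : qExpand Kb d (castLS Kb D.lser) ∈ modularFunctionFieldBar N :=
  RED.mem_bar_of_mem_RN N (D.hol d) (D.hol_mem_RN hd) _ (D.toMer_per d) _ (D.toLaurent_per d)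

/-- `E(dτ)` as an element of the function field of `X₀(N)`. -/
def el : FN N := ⟨qExpand Kb d (castLS Kb D.lser), D.qExpand_lser_mem d N hd⟩

@[simp] theorem coe_el : (D.el d N hd : LaurentSeries Kb) = qExpand Kb d (castLS Kb D.lser) := rfl

theorem ThetaMer_el : ThetaMer N (D.el d N hd) = algebraMap Hol Mer (D.hol d) :=
  RED.ThetaMer_eq_of_mem_RN N (D.hol d) (D.hol_mem_RN hd) _ (D.toMer_per d) _ (D.toLaurent_per d)

theorem ThetaMer_el_inv : ThetaMer N (D.el d N hd)⁻¹ = algebraMap Hol Mer (D.holInv d) := by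
  rw [map_inv₀, ThetaMer_el]
  apply inv_eq_of_mul_eq_one_right
  rw [← map_mul, hol_mul_holInv, map_one]

theorem isIntegral_el : IsIntegral (Algebra.adjoin Kb {jF N}) (D.el d N hd) :=
  isIntegral_of_mem_RN N _ (D.hol d) (D.hol_mem_RN hd) (D.ThetaMer_el d N hd)

theorem isIntegral_el_inv : IsIntegral (Algebra.adjoin Kb {jF N}) (D.el d N hd)⁻¹ :=
  isIntegral_of_mem_RN N _ (D.holInv d) (D.holInv_mem_RN hd) (D.ThetaMer_el_inv d N hd)

/-- the expansion of the inverse, given a formal inverse. -/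
theorem coe_el_inv {t : LaurentSeries ℤ} (ht : t * D.lser = 1) :
    (((D.el d N hd)⁻¹ : FN N) : LaurentSeries Kb) = qExpand Kb d (castLS Kb t) := by
  have h1 : (((D.el d N hd)⁻¹ : FN N) : LaurentSeries Kb)
      = (qExpand Kb d (castLS Kb D.lser))⁻¹ := rfl
  rw [h1]
  have h2 : qExpand Kb d (castLS Kb t) * qExpand Kb d (castLS Kb D.lser) = 1 := by
    rw [← map_mul, ← map_mul, ht, map_one, map_one]
  exact (eq_inv_of_mul_eq_one_left h2).symm

theorem el_ne_zero {t : LaurentSeries ℤ} (ht : t * D.lser = 1) : D.el d N hd ≠ 0 := by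
  intro h
  have h1 := congrArg (fun x : FN N => (x : LaurentSeries Kb)) h
  simp only [coe_el] at h1
  have h2 : qExpand Kb d (castLS Kb t) * qExpand Kb d (castLS Kb D.lser) = 1 := by
    rw [← map_mul, ← map_mul, ht, map_one, map_one]
  rw [h1] at h2
  simp at h2

end EtaU

end Fermat.Agent.S45.L9
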