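import Fermat.Agent.S36.Haupt.Formal

/-!
# S45 / [HAUPT9] : formal part  (level `9`, used for `q = 2`)

`h = (η(9τ)/η(τ))^3 = T ∏ (1-T^{9n})^3/(1-T^n)^3` (Hauptmodul of `X₀(9)`), `t = 1/h`, `ψ = T t = psi9`.
`Q = η(3τ)^10/(η(τ)η(9τ))^3 = q9ser`,  `G = η(τ)^3/η(3τ) = G9ser`,  `U = Q/G² = η(3τ)^12/(η(τ)^9 η(9τ)^3) = u9ser`.

* `LogD f L` : `θ f = f L`  (calculus of logarithmic derivatives);
* `thD_psi9_delta` : `θ ψ = - ψ (3 δ₉)`;
* `thD_psi9` : `θ ψ - ψ = - ψ Q` from `[JAC9]`  `8 Q = 8 + 24 ∑ (σ₁(n) - 9 σ₁(n/9)) X^n`;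
* `coeff_one_q9ser`, `coeff_two_q9ser` : `Q = 1 + 3 X + 9 X² + ...`.
-/

set_option autoImplicit false

open PowerSeries

noncomputable section

namespace Fermat.Agent.S45.L9

open Fermat.Agent.S36

/-- `θ f = f L`. -/
def LogD (f L : PowerSeries ℤ) : Prop := thD f = f * L

theorem thD_one' : thD 1 = 0 := by
  ext n
  rw [coeff_thD, coeff_one]
  split_ifs with h
  · subst h; simp
  · simp

theorem LogD.mul {f g L M : PowerSeries ℤ} (hf : LogD f L) (hg : LogD g M) :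
    LogD (f * g) (L + M) := by
  unfold LogD at *
  rw [thD_mul, hf, hg]
  ring

theorem logD_one : LogD 1 0 := by
  unfold LogD
  rw [thD_one', mul_zero]

theorem LogD.pow {f L : PowerSeries ℤ} (hf : LogD f L) (n : ℕ) : LogD (f ^ n) (C (n : ℤ) * L) := by
  induction n with
  | zero => simpa using logD_one
  | succ n ih =>
    have := ih.mul hf
    rw [← pow_succ] at this
    have e : C (n : ℤ) * L + L = C ((n + 1 : ℕ) : ℤ) * L := by
      push_cast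
      rw [map_add, map_one]
      ring
    rwa [e] at this

theorem LogD.inv {f g L : PowerSeries ℤ} (hf : LogD f L) (hfg : f * g = 1) : LogD g (-L) := by
  unfold LogD at *
  have h1 := congrArg thD hfg
  rw [thD_mul, thD_one', hf] at h1
  have h2 : g * (f * thD g + g * (f * L)) = 0 := by rw [h1, mul_zero]
  have h3 : g * (f * thD g + g * (f * L)) = (f * g) * thD g + (f * g) * (g * L) := by ring
  rw [h3, hfg, one_mul, one_mul] at h2
  linear_combination h2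

theorem logD_eS (d : ℕ) (hd : d ≠ 0) : LogD (eS d) (-(C (d : ℤ) * S16.psV d S16.sigmaZ)) := by
  unfold LogD
  rw [thD_eS d hd]
  ring

/-- `T t = ∏ (1-T^n)^3/(1-T^{9n})^3`. -/
def psi9 : PowerSeries ℤ := eS 1 ^ 3 * (eS 9 ^ 3).invOfUnit 1

/-- `h / T = ∏ (1-T^{9n})^3/(1-T^n)^3`. -/
def psi9inv : PowerSeries ℤ := eS 9 ^ 3 * (eS 1 ^ 3).invOfUnit 1

/-- `η(3τ)^10/(η(τ)η(9τ))^3`. -/
def q9ser : PowerSeries ℤ := eS 3 ^ 10 * ((eS 1 ^ 3).invOfUnit 1 * (eS 9 ^ 3).invOfUnit 1)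

/-- `η(3τ)^12/(η(τ)^9 η(9τ)^3)`. -/
def u9ser : PowerSeries ℤ := eS 3 ^ 12 * ((eS 1 ^ 9).invOfUnit 1 * (eS 9 ^ 3).invOfUnit 1)

/-- `η(τ)^9 η(9τ)^3/η(3τ)^12`. -/
def u9inv : PowerSeries ℤ := eS 1 ^ 9 * eS 9 ^ 3 * (eS 3 ^ 12).invOfUnit 1

theorem psi9_mul_inv : psi9 * psi9inv = 1 := by
  unfold psi9 psi9inv
  calc eS 1 ^ 3 * (eS 9 ^ 3).invOfUnit 1 * (eS 9 ^ 3 * (eS 1 ^ 3).invOfUnit 1)
      = (eS 1 ^ 3 * (eS 1 ^ 3).invOfUnit 1) * (eS 9 ^ 3 * (eS 9 ^ 3).invOfUnit 1) := by ring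
    _ = 1 := by rw [eS_pow_mul_invOfUnit, eS_pow_mul_invOfUnit, one_mul]

theorem u9ser_mul_inv : u9ser * u9inv = 1 := by
  unfold u9ser u9inv
  calc eS 3 ^ 12 * ((eS 1 ^ 9).invOfUnit 1 * (eS 9 ^ 3).invOfUnit 1) *
        (eS 1 ^ 9 * eS 9 ^ 3 * (eS 3 ^ 12).invOfUnit 1)
      = (eS 3 ^ 12 * (eS 3 ^ 12).invOfUnit 1) * (eS 1 ^ 9 * (eS 1 ^ 9).invOfUnit 1) *
          (eS 9 ^ 3 * (eS 9 ^ 3).invOfUnit 1) := by ring
    _ = 1 := by rw [eS_pow_mul_invOfUnit, eS_pow_mul_invOfUnit, eS_pow_mul_invOfUnit, one_mul, one_mul]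

theorem constantCoeff_inv_eS_pow (d n : ℕ) : constantCoeff ((eS d ^ n).invOfUnit 1) = 1 :=
  constantCoeff_invOfUnit_one (by rw [map_pow, constantCoeff_eS, one_pow])

theorem constantCoeff_psi9 : constantCoeff psi9 = 1 := by
  unfold psi9
  rw [map_mul, map_pow, constantCoeff_eS, one_pow, one_mul, constantCoeff_inv_eS_pow]

theorem constantCoeff_psi9inv : constantCoeff psi9inv = 1 := by
  unfold psi9inv
  rw [map_mul, map_pow, constantCoeff_eS, one_pow, one_mul, constantCoeff_inv_eS_pow]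

theorem constantCoeff_q9ser : constantCoeff q9ser = 1 := by
  unfold q9ser
  rw [map_mul, map_mul, map_pow, constantCoeff_eS, one_pow, one_mul, constantCoeff_inv_eS_pow,
    constantCoeff_inv_eS_pow, one_mul]

theorem constantCoeff_u9ser : constantCoeff u9ser = 1 := by
  unfold u9ser
  rw [map_mul, map_mul, map_pow, constantCoeff_eS, one_pow, one_mul, constantCoeff_inv_eS_pow,
    constantCoeff_inv_eS_pow, one_mul]

theorem constantCoeff_u9inv : constantCoeff u9inv = 1 := by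
  unfold u9inv
  rw [map_mul, map_mul, map_pow, map_pow, constantCoeff_eS, constantCoeff_eS, one_pow, one_pow,
    one_mul, one_mul, constantCoeff_inv_eS_pow]

/-- `Q = G² U`. -/
theorem q9ser_eq : q9ser = G9ser ^ 2 * u9ser := by
  have h1 := eS_pow_mul_invOfUnit 1 3
  have h9 := eS_pow_mul_invOfUnit 1 9
  have h3 : eS 3 * (eS 3).invOfUnit 1 = 1 :=
    PowerSeries.mul_invOfUnit _ 1 (by rw [constantCoeff_eS]; rfl)
  unfold q9ser G9ser u9ser
  set a := eS 1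
  set b := eS 3
  set c := (eS 9 ^ 3).invOfUnit 1
  set a3 := (a ^ 3).invOfUnit 1
  set a9 := (a ^ 9).invOfUnit 1
  set bi := b.invOfUnit 1
  have e1 : a3 = a ^ 6 * a9 := by
    calc a3 = a3 * (a ^ 9 * a9) := by rw [h9, mul_one]
      _ = (a ^ 3 * a3) * (a ^ 6 * a9) := by ring
      _ = a ^ 6 * a9 := by rw [h1, one_mul]
  calc b ^ 10 * (a3 * c) = b ^ 10 * (a ^ 6 * a9 * c) := by rw [e1]
    _ = (b * bi) ^ 2 * (b ^ 10 * (a ^ 6 * a9 * c)) := by rw [h3, one_pow, one_mul]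
    _ = (a ^ 3 * bi) ^ 2 * (b ^ 12 * (a9 * c)) := by ring

theorem logD_inv_eS_pow (d : ℕ) (hd : d ≠ 0) (n : ℕ) :
    LogD ((eS d ^ n).invOfUnit 1) (C (n : ℤ) * (C (d : ℤ) * S16.psV d S16.sigmaZ)) := by
  have := ((logD_eS d hd).pow n).inv (eS_pow_mul_invOfUnit d n)
  have e : -(C (n : ℤ) * -(C (d : ℤ) * S16.psV d S16.sigmaZ))
      = C (n : ℤ) * (C (d : ℤ) * S16.psV d S16.sigmaZ) := by ring
  rwa [e] at this

theorem thD_psi9_delta : thD psi9 = - (psi9 * (C 3 * S16.deltaZ 9)) := by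
  have h := ((logD_eS 1 one_ne_zero).pow 3).mul (logD_inv_eS_pow 9 (by norm_num) 3)
  unfold LogD at h
  unfold psi9
  rw [h, psV_one]
  unfold S16.deltaZ
  have e3 : (C ((3 : ℕ) : ℤ) : PowerSeries ℤ) = C 3 := by norm_num
  have e9 : (C ((9 : ℕ) : ℤ) : PowerSeries ℤ) = C 9 := by norm_num
  have e1 : (C ((1 : ℕ) : ℤ) : PowerSeries ℤ) = 1 := by simp
  rw [e3, e9, e1]
  ring

/-- the logarithmic derivative of `Q`. -/
def lq9 : PowerSeries ℤ :=
  C 3 * S16.sigmaZ + C 27 * S16.psV 9 S16.sigmaZ - C 30 * S16.psV 3 S16.sigmaZ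

theorem logD_q9ser : LogD q9ser lq9 := by
  have h := ((logD_eS 3 (by norm_num)).pow 10).mul
    ((logD_inv_eS_pow 1 one_ne_zero 3).mul (logD_inv_eS_pow 9 (by norm_num) 3))
  rw [psV_one] at h
  have e : C ((10 : ℕ) : ℤ) * -(C ((3 : ℕ) : ℤ) * S16.psV 3 S16.sigmaZ) +
      (C ((3 : ℕ) : ℤ) * (C ((1 : ℕ) : ℤ) * S16.sigmaZ) +
        C ((3 : ℕ) : ℤ) * (C ((9 : ℕ) : ℤ) * S16.psV 9 S16.sigmaZ)) = lq9 := by
    unfold lq9
    have e3 : (C ((3 : ℕ) : ℤ) : PowerSeries ℤ) = C 3 := by norm_num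
    have e9 : (C ((9 : ℕ) : ℤ) : PowerSeries ℤ) = C 9 := by norm_num
    have e10 : (C ((10 : ℕ) : ℤ) : PowerSeries ℤ) = C 10 := by norm_num
    have e1 : (C ((1 : ℕ) : ℤ) : PowerSeries ℤ) = 1 := by simp
    have e27 : (C 27 : PowerSeries ℤ) = C 3 * C 9 := by rw [← map_mul]; norm_num
    have e30 : (C 30 : PowerSeries ℤ) = C 10 * C 3 := by rw [← map_mul]; norm_num
    rw [e3, e9, e10, e1, e27, e30]
    ring
  rw [e] at h
  exact h

theorem coeff_lq9 (n : ℕ) : coeff n lq9 = 3 * coeff n S16.sigmaZ +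
    27 * (if 9 ∣ n then coeff (n / 9) S16.sigmaZ else 0) -
    30 * (if 3 ∣ n then coeff (n / 3) S16.sigmaZ else 0) := by
  unfold lq9
  rw [map_sub, map_add, coeff_C_mul, coeff_C_mul, coeff_C_mul, S16.coeff_psV, S16.coeff_psV]

theorem coeff_lq9_zero : coeff 0 lq9 = 0 := by
  rw [coeff_lq9]
  simp [S16.coeff_sigmaZ]

theorem coeff_lq9_one : coeff 1 lq9 = 3 := by
  rw [coeff_lq9, if_neg (by decide), if_neg (by decide), S16.coeff_sigmaZ]
  simp

theorem coeff_lq9_two : coeff 2 lq9 = 9 := by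
  have h2 : (Nat.divisors 2) = {1, 2} := by decide
  rw [coeff_lq9, if_neg (by decide), if_neg (by decide), S16.coeff_sigmaZ, h2]
  simp

theorem constantCoeff_lq9 : constantCoeff lq9 = 0 := by
  rw [← coeff_zero_eq_constantCoeff_apply]; exact coeff_lq9_zero

theorem coeff_one_q9ser : coeff 1 q9ser = 3 := by
  have h := congrArg (coeff 1) logD_q9ser
  rw [coeff_thD, coeff_one_mul, coeff_lq9_one, constantCoeff_lq9, constantCoeff_q9ser] at h
  simpa using h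

theorem coeff_two_q9ser : coeff 2 q9ser = 9 := by
  have h := congrArg (coeff 2) logD_q9ser
  rw [coeff_thD, PowerSeries.coeff_mul] at h
  have ha : Finset.HasAntidiagonal.antidiagonal 2 = {((0 : ℕ), (2 : ℕ)), (1, 1), (2, 0)} := by decide
  rw [ha, Finset.sum_insert (by decide), Finset.sum_insert (by decide), Finset.sum_singleton,
    coeff_lq9_two, coeff_lq9_one, coeff_lq9_zero, coeff_one_q9ser,
    coeff_zero_eq_constantCoeff_apply, constantCoeff_q9ser] at h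
  push_cast at h
  linarith

/-- `D t = - t Q` in terms of `ψ = T t`. -/
theorem thD_psi9_of (hJ : C 8 * q9ser = S16.eisZ 9) : thD psi9 - psi9 = - (psi9 * q9ser) := by
  rw [S16.eisZ_eq] at hJ
  have h1 : q9ser = 1 + C 3 * S16.deltaZ 9 := by
    have h8 : (C 8 : PowerSeries ℤ) ≠ 0 := by
      intro h
      have := congrArg (constantCoeff (R := ℤ)) h
      rw [constantCoeff_C, map_zero] at this
      omega
    apply mul_left_cancel₀ h8
    rw [hJ]
    have e8 : (C (((9 : ℕ) : ℤ) - 1) : PowerSeries ℤ) = C 8 := by norm_num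
    have e24 : (C 24 : PowerSeries ℤ) = C 8 * C 3 := by rw [← map_mul]; norm_num
    rw [e8, e24]
    ring
  rw [thD_psi9_delta, h1]
  ring

end Fermat.Agent.S45.L9
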