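import Fermat.Agent.S36.Haupt.THol

/-!
# S45 / [HAUPT9] : the eta quotients of level `9`, analytic part

`H9 = η(9τ)^3/η(τ)^3` (Hauptmodul of `X₀(9)`), `U9 = η(3τ)^12/(η(τ)^9 η(9τ)^3)` (a modular unit of `Y₀(9)`),
`Q9 = η(3τ)^10/(η(τ)η(9τ))^3 = G9² U9` (weight `2`).   Automorphy under `Γ₀(9)` from `S36.G9_smul`, `S36.G9_smul_gamma0_three`.
-/

set_option autoImplicit false

open Complex Function Filter ModularForm Matrix.SpecialLinearGroup CongruenceSubgroup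
open UpperHalfPlane hiding I
open scoped Real MatrixGroups Manifold Topology
open Fermat.Agent.S24

noncomputable section

namespace Fermat.Agent.S45.L9

open Fermat.Agent.S36

local notation "𝕢" => Periodic.qParam
local notation "Δ" => ModularForm.discriminant

/-- `η(9τ)^3 / η(τ)^3`. -/
def H9 (z : ℂ) : ℂ := η (9 * z) ^ 3 / η z ^ 3

/-- `η(3τ)^12 / (η(τ)^9 η(9τ)^3)`. -/
def U9 (z : ℂ) : ℂ := η (3 * z) ^ 12 / (η z ^ 9 * η (9 * z) ^ 3)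

/-- `η(3τ)^10 / (η(τ)^3 η(9τ)^3)`. -/
def Q9 (z : ℂ) : ℂ := η (3 * z) ^ 10 / (η z ^ 3 * η (9 * z) ^ 3)

theorem im_nine_mul_pos {z : ℂ} (hz : 0 < z.im) : 0 < (9 * z).im := by
  simpa using im_nat_mul_pos hz (n := 9) (by norm_num)

theorem H9_ne_zero {z : ℂ} (hz : 0 < z.im) : H9 z ≠ 0 :=
  div_ne_zero (pow_ne_zero _ (eta_ne_zero' (im_nine_mul_pos hz))) (pow_ne_zero _ (eta_ne_zero' hz))

theorem U9_ne_zero {z : ℂ} (hz : 0 < z.im) : U9 z ≠ 0 :=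
  div_ne_zero (pow_ne_zero _ (eta_ne_zero' (im_three_mul_pos hz)))
    (mul_ne_zero (pow_ne_zero _ (eta_ne_zero' hz)) (pow_ne_zero _ (eta_ne_zero' (im_nine_mul_pos hz))))

theorem Q9_ne_zero {z : ℂ} (hz : 0 < z.im) : Q9 z ≠ 0 :=
  div_ne_zero (pow_ne_zero _ (eta_ne_zero' (im_three_mul_pos hz)))
    (mul_ne_zero (pow_ne_zero _ (eta_ne_zero' hz)) (pow_ne_zero _ (eta_ne_zero' (im_nine_mul_pos hz))))

theorem nine_eq (z : ℂ) : (3 : ℂ) * (3 * z) = 9 * z := by ring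

theorem Q9_eq {z : ℂ} (hz : 0 < z.im) : Q9 z = G9 (3 * z) ^ 3 / G9 z := by
  have n1 := eta_ne_zero' hz
  have n3 := eta_ne_zero' (im_three_mul_pos hz)
  have n9 := eta_ne_zero' (im_nine_mul_pos hz)
  unfold Q9 G9
  rw [nine_eq]
  field_simp

theorem U9_eq {z : ℂ} (hz : 0 < z.im) : U9 z = G9 (3 * z) ^ 3 / G9 z ^ 3 := by
  have n1 := eta_ne_zero' hz
  have n3 := eta_ne_zero' (im_three_mul_pos hz)
  have n9 := eta_ne_zero' (im_nine_mul_pos hz)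
  unfold U9 G9
  rw [nine_eq]
  field_simp

theorem Q9_eq_mul {z : ℂ} (hz : 0 < z.im) : Q9 z = G9 z ^ 2 * U9 z := by
  have n := G9_ne_zero hz
  rw [Q9_eq hz, U9_eq hz]
  field_simp

theorem H9_cube {z : ℂ} (hz : 0 < z.im) :
    H9 z ^ 3 * (G9 (3 * z) ^ 3) ^ 3 * G9 z ^ 3 = η (3 * z) ^ 24 := by
  have n1 := eta_ne_zero' hz
  have n3 := eta_ne_zero' (im_three_mul_pos hz)
  have n9 := eta_ne_zero' (im_nine_mul_pos hz)
  unfold H9 G9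
  rw [nine_eq]
  field_simp

theorem chi3_cube (d : ℤ) : ((chi3 d : ℤ) : ℂ) ^ 3 = (chi3 d : ℂ) := by
  have := chi3_sq d
  have h : ((chi3 d : ℤ) : ℂ) * (chi3 d : ℂ) = 1 := by exact_mod_cast this
  calc ((chi3 d : ℤ) : ℂ) ^ 3 = ((chi3 d : ℂ) * (chi3 d : ℂ)) * (chi3 d : ℂ) := by ring
    _ = _ := by rw [h, one_mul]

theorem chi3_sq' (d : ℤ) : ((chi3 d : ℤ) : ℂ) ^ 2 = 1 := by
  have := chi3_sq d
  rw [sq]
  exact_mod_cast this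

theorem eps3_cube (g : SL(2, ℤ)) : eps3 g ^ 3 = (chi3 (g 1 1) : ℂ) := by
  unfold eps3
  rw [mul_pow, chi3_cube, ← zpow_natCast, ← zpow_mul]
  have : -(g 1 0 / 3 * g 1 1) * ((3 : ℕ) : ℤ) = 3 * (-(g 1 0 / 3 * g 1 1)) := by push_cast; ring
  rw [this, omega3_zpow_three_mul, mul_one]

/-- automorphy of `G9³` on `Γ₀(3)`, raw form. -/
theorem G9_cube_automorphy (a b c d : ℤ) (hdet : a * d - b * c = 1) (hc : (3 : ℤ) ∣ c) {z : ℂ}
    (hz : 0 < z.im) :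
    G9 (((a : ℂ) * z + b) / ((c : ℂ) * z + d)) ^ 3 =
      (chi3 d : ℂ) * ((c : ℂ) * z + d) ^ 3 * G9 z ^ 3 := by
  let g : SL(2, ℤ) := ⟨!![a, b; c, d], by rw [Matrix.det_fin_two_of]; exact hdet⟩
  have h := G9_smul_gamma0_three g (show (3 : ℤ) ∣ c from hc) ⟨z, hz⟩
  rw [coe_smul_eq g] at h
  have h' : G9 (((a : ℂ) * z + b) / ((c : ℂ) * z + d)) = eps3 g * ((c : ℂ) * z + d) * G9 z := by
    simpa [cd, g] using h
  rw [h', mul_pow, mul_pow, eps3_cube]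
  rfl

/-- `G9(3τ)³` on `Γ₀(9)`. -/
theorem B3_smul (g : SL(2, ℤ)) (hg : (9 : ℤ) ∣ g 1 0) (τ : ℍ) :
    G9 (3 * ((g • τ : ℍ) : ℂ)) ^ 3 = (chi3 (g 1 1) : ℂ) * cd g τ ^ 3 * G9 (3 * (τ : ℂ)) ^ 3 := by
  obtain ⟨c', hc'⟩ := hg
  have hdet := sl2_det g
  have h := G9_cube_automorphy (g 0 0) (g 0 1 * 3) (3 * c') (g 1 1) (by
    rw [hc'] at hdet
    linear_combination hdet) (Dvd.intro _ rfl) (im_three_mul_pos τ.im_pos)
  have hcd : cd g τ = (((3 * c' : ℤ)) : ℂ) * (3 * (τ : ℂ)) + (g 1 1 : ℂ) := by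
    rw [cd, hc']
    push_cast
    ring
  rw [← hcd] at h
  rw [← h]
  congr 2
  rw [coe_smul_eq]
  have := cd_ne_zero g τ
  push_cast
  field_simp

theorem Q9_smul (g : SL(2, ℤ)) (hg : (9 : ℤ) ∣ g 1 0) (τ : ℍ) :
    Q9 ((g • τ : ℍ) : ℂ) = cd g τ ^ 2 * Q9 τ := by
  rw [Q9_eq (g • τ).im_pos, Q9_eq τ.im_pos, B3_smul g hg, G9_smul g hg]
  have h1 := cd_ne_zero g τ
  have h2 := G9_ne_zero τ.im_pos
  have h3 : ((chi3 (g 1 1) : ℤ) : ℂ) ≠ 0 := by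
    intro h
    have := chi3_sq' (g 1 1)
    rw [h] at this
    norm_num at this
  field_simp

theorem U9_smul (g : SL(2, ℤ)) (hg : (9 : ℤ) ∣ g 1 0) (τ : ℍ) :
    U9 ((g • τ : ℍ) : ℂ) = U9 τ := by
  rw [U9_eq (g • τ).im_pos, U9_eq τ.im_pos, B3_smul g hg, G9_smul g hg, mul_pow, mul_pow, chi3_cube]
  have h1 := cd_ne_zero g τ
  have h2 := G9_ne_zero τ.im_pos
  have h3 : ((chi3 (g 1 1) : ℤ) : ℂ) ≠ 0 := by
    intro h
    have := chi3_sq' (g 1 1)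
    rw [h] at this
    norm_num at this
  field_simp

theorem mem_Gamma0_of_dvd {N : ℕ} (g : SL(2, ℤ)) (hg : (N : ℤ) ∣ g 1 0) : g ∈ Gamma0 N :=
  Gamma0_mem.mpr ((ZMod.intCast_zmod_eq_zero_iff_dvd _ _).mpr hg)

theorem W_smul_eq (d : ℕ) [NeZero d] (g : SL(2, ℤ)) (hg : (d : ℤ) ∣ g 1 0) (τ : ℍ) :
    S28.Unit.W d (g • τ) = S28.Unit.W d τ :=
  S28.Unit.quot_invariant d d (dvd_refl d) g (mem_Gamma0_of_dvd g hg) τ

theorem H9_pow_eight (τ : ℍ) : H9 τ ^ 8 = S28.Unit.W 9 τ := by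
  rw [W_eq_eta 9 (by norm_num), H9]
  push_cast
  rw [div_pow]
  ring

theorem eta_three_smul (g : SL(2, ℤ)) (hg : (3 : ℤ) ∣ g 1 0) (τ : ℍ) :
    η (3 * ((g • τ : ℍ) : ℂ)) ^ 24 = cd g τ ^ 12 * η (3 * (τ : ℂ)) ^ 24 := by
  have h1 := W_smul_eq 3 g (by exact_mod_cast hg) τ
  rw [W_eq_eta 3 (by norm_num), W_eq_eta 3 (by norm_num)] at h1
  have h2 := Common.JPoly.discriminant_smul g τ
  rw [discriminant_eq_eta, discriminant_eq_eta] at h2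
  have hd : denom g τ = cd g τ := by
    rw [ModularGroup.denom_apply]; rfl
  have h5 : (denom g τ) ^ (12 : ℤ) = (denom g τ) ^ 12 := by norm_cast
  rw [h5, hd] at h2
  have n1 := eta_ne_zero' τ.im_pos
  have n2 := eta_ne_zero' (g • τ).im_pos
  push_cast at h1
  rw [div_eq_div_iff (pow_ne_zero _ n2) (pow_ne_zero _ n1), h2] at h1
  have n3 : η (τ : ℂ) ^ 24 ≠ 0 := pow_ne_zero _ n1
  apply mul_right_cancel₀ n3
  rw [h1]
  ring

theorem H9_smul (g : SL(2, ℤ)) (hg : (9 : ℤ) ∣ g 1 0) (τ : ℍ) :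
    H9 ((g • τ : ℍ) : ℂ) = H9 τ := by
  have h8 : H9 ((g • τ : ℍ) : ℂ) ^ 8 = H9 τ ^ 8 := by
    rw [H9_pow_eight, H9_pow_eight, W_smul_eq 9 g (by exact_mod_cast hg)]
  have h3 : H9 ((g • τ : ℍ) : ℂ) ^ 3 = H9 τ ^ 3 := by
    have e1 := H9_cube (g • τ).im_pos
    have e2 := H9_cube τ.im_pos
    rw [B3_smul g hg, G9_smul g hg, eta_three_smul g (Dvd.dvd.trans (by norm_num) hg), ← e2] at e1
    have c1 := cd_ne_zero g τ
    have c2 := G9_ne_zero τ.im_pos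
    have c3 := G9_ne_zero (im_three_mul_pos τ.im_pos)
    have hchi : ((chi3 (g 1 1) : ℤ) : ℂ) ^ 6 = 1 := by
      calc ((chi3 (g 1 1) : ℤ) : ℂ) ^ 6 = (((chi3 (g 1 1) : ℤ) : ℂ) ^ 2) ^ 3 := by ring
        _ = 1 := by rw [chi3_sq', one_pow]
    have e3 : H9 ((g • τ : ℍ) : ℂ) ^ 3 * (cd g τ ^ 12 * ((G9 (3 * (τ : ℂ)) ^ 3) ^ 3 * G9 τ ^ 3))
        = H9 τ ^ 3 * (cd g τ ^ 12 * ((G9 (3 * (τ : ℂ)) ^ 3) ^ 3 * G9 τ ^ 3)) := by
      calc _ = H9 ((g • τ : ℍ) : ℂ) ^ 3 * (((chi3 (g 1 1) : ℤ) : ℂ) ^ 6 *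
            (cd g τ ^ 12 * ((G9 (3 * (τ : ℂ)) ^ 3) ^ 3 * G9 τ ^ 3))) := by rw [hchi, one_mul]
        _ = _ := by linear_combination e1
    exact mul_right_cancel₀ (mul_ne_zero (pow_ne_zero _ c1)
      (mul_ne_zero (pow_ne_zero _ (pow_ne_zero _ c3)) (pow_ne_zero _ c2))) e3
  have hy := H9_ne_zero τ.im_pos
  have h9 : H9 ((g • τ : ℍ) : ℂ) * H9 τ ^ 8 = H9 τ * H9 τ ^ 8 := by
    calc _ = H9 ((g • τ : ℍ) : ℂ) * H9 ((g • τ : ℍ) : ℂ) ^ 8 := by rw [h8]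
      _ = (H9 ((g • τ : ℍ) : ℂ) ^ 3) ^ 3 := by ring
      _ = (H9 τ ^ 3) ^ 3 := by rw [h3]
      _ = _ := by ring
  exact mul_right_cancel₀ (pow_ne_zero _ hy) h9

theorem U9_pow_eight (τ : ℍ) : U9 τ ^ 8 = S28.Unit.W 3 τ ^ 4 / S28.Unit.W 9 τ := by
  rw [W_eq_eta 9 (by norm_num), W_eq_eta 3 (by norm_num), U9]
  have n1 := eta_ne_zero' τ.im_pos
  have n3 := eta_ne_zero' (im_three_mul_pos τ.im_pos)
  have n9 := eta_ne_zero' (im_nine_mul_pos τ.im_pos)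
  push_cast
  field_simp

/-! ### as functions of `q` -/

/-- `h` as a function of `q`. -/
def phiH9 (q : ℂ) : ℂ := q * (eulerP (q ^ 9) ^ 3 / eulerP q ^ 3)

/-- `U` as a function of `q`. -/
def phiU9 (q : ℂ) : ℂ := eulerP (q ^ 3) ^ 12 / (eulerP q ^ 9 * eulerP (q ^ 9) ^ 3)

/-- `1/U` as a function of `q`. -/
def phiV9 (q : ℂ) : ℂ := eulerP q ^ 9 * eulerP (q ^ 9) ^ 3 / eulerP (q ^ 3) ^ 12

/-- `Q` as a function of `q`. -/
def phiQ9 (q : ℂ) : ℂ := eulerP (q ^ 3) ^ 10 / (eulerP q ^ 3 * eulerP (q ^ 9) ^ 3)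

theorem q24_pow (z : ℂ) : 𝕢 24 z ^ 24 = 𝕢 1 z := by
  simp only [Periodic.qParam, ← Complex.exp_nat_mul]
  congr 1
  push_cast
  ring

theorem H9_eq_phiH9 (z : ℂ) : H9 z = phiH9 (𝕢 1 z) := by
  have h9 := eta_nat_mul 9 z
  push_cast at h9
  unfold H9 phiH9
  rw [h9, eta_eq' z]
  have ht : 𝕢 24 z ≠ 0 := Periodic.qParam_ne_zero z
  rw [← q24_pow]
  by_cases h1 : eulerP (𝕢 24 z ^ 24) = 0
  · simp [h1]
  field_simp

theorem U9_eq_phiU9 (z : ℂ) : U9 z = phiU9 (𝕢 1 z) := by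
  have h9 := eta_nat_mul 9 z
  have h3 := eta_nat_mul 3 z
  push_cast at h9 h3
  unfold U9 phiU9
  rw [h9, h3, eta_eq' z]
  have ht : 𝕢 24 z ≠ 0 := Periodic.qParam_ne_zero z
  by_cases h1 : eulerP (𝕢 1 z) = 0
  · simp [h1]
  by_cases h2 : eulerP (𝕢 1 z ^ 9) = 0
  · simp [h2]
  field_simp

theorem Q9_eq_phiQ9 (z : ℂ) : Q9 z = phiQ9 (𝕢 1 z) := by
  have h9 := eta_nat_mul 9 z
  have h3 := eta_nat_mul 3 z
  push_cast at h9 h3
  unfold Q9 phiQ9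
  rw [h9, h3, eta_eq' z]
  have ht : 𝕢 24 z ≠ 0 := Periodic.qParam_ne_zero z
  by_cases h1 : eulerP (𝕢 1 z) = 0
  · simp [h1]
  by_cases h2 : eulerP (𝕢 1 z ^ 9) = 0
  · simp [h2]
  field_simp

theorem diffOn_phiH9 : DifferentiableOn ℂ phiH9 (Metric.ball 0 1) := by
  unfold phiH9
  refine DifferentiableOn.mul differentiableOn_id ?_
  exact DifferentiableOn.div ((diffOn_comp_pow diffOn_eulerP (by norm_num)).pow 3)
    (diffOn_eulerP.pow 3) (fun q hq => pow_ne_zero _ (eulerP_ne_zero hq))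

theorem diffOn_phiU9 : DifferentiableOn ℂ phiU9 (Metric.ball 0 1) := by
  unfold phiU9
  exact DifferentiableOn.div ((diffOn_comp_pow diffOn_eulerP (by norm_num)).pow 12)
    ((diffOn_eulerP.pow 9).mul ((diffOn_comp_pow diffOn_eulerP (by norm_num)).pow 3))
    (fun q hq => mul_ne_zero (pow_ne_zero _ (eulerP_ne_zero hq))
      (pow_ne_zero _ (eulerP_ne_zero (pow_mem_ball hq (by norm_num)))))

theorem diffOn_phiV9 : DifferentiableOn ℂ phiV9 (Metric.ball 0 1) := by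
  unfold phiV9
  exact DifferentiableOn.div
    ((diffOn_eulerP.pow 9).mul ((diffOn_comp_pow diffOn_eulerP (by norm_num)).pow 3))
    ((diffOn_comp_pow diffOn_eulerP (by norm_num)).pow 12)
    (fun q hq => pow_ne_zero _ (eulerP_ne_zero (pow_mem_ball hq (by norm_num))))

theorem diffOn_phiQ9 : DifferentiableOn ℂ phiQ9 (Metric.ball 0 1) := by
  unfold phiQ9
  exact DifferentiableOn.div ((diffOn_comp_pow diffOn_eulerP (by norm_num)).pow 10)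
    ((diffOn_eulerP.pow 3).mul ((diffOn_comp_pow diffOn_eulerP (by norm_num)).pow 3))
    (fun q hq => mul_ne_zero (pow_ne_zero _ (eulerP_ne_zero hq))
      (pow_ne_zero _ (eulerP_ne_zero (pow_mem_ball hq (by norm_num)))))

end Fermat.Agent.S45.L9
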