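import Fermat.Agent.S45.Haupt9.Fun
import Fermat.Agent.S45.Haupt9.Formal
import Fermat.Agent.S36.Haupt.Jac4

/-!
# S45 / [HAUPT9] : `[JAC9]`  `η(3τ)^10/(η(τ)η(9τ))^3 = 1 + 3 ∑ (σ₁(n) - 9 σ₁(n/9)) qⁿ`

`Q9` is a modular form of weight `2` on `Γ₀(9)`:
* invariance: `Q9_smul`;  holomorphy: `mdiff_ofDisc diffOn_phiQ9`;
* boundedness at the cusps: `(Q9 ∣[2] γ)^24 = Δ⁴ (W 3 ∘ γ)^10 (W 9 ∘ γ)^(-3)`, absolute value
  `~ const * exp(-2π y (10 a₃/e₃ - 3 - 3 a₉/e₉))`, `(a₃, a₉) ∈ {(1,1), (3,3), (3,9)}`.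
Then Sturm (index `12`, bound `2`) against `S16.isQ_eisZ 9`.
-/

set_option autoImplicit false

open PowerSeries CongruenceSubgroup UpperHalfPlane ModularForm
open scoped MatrixGroups Manifold

noncomputable section

namespace Fermat.Agent.S45.L9

open Fermat.Agent.S36 Fermat.Agent.S24

theorem j9_pow (τ : ℍ) :
    Q9 τ ^ 24 * S28.Unit.W 9 τ ^ 3 = discriminant τ ^ 4 * S28.Unit.W 3 τ ^ 10 := by
  rw [W_eq_eta 3 (by norm_num), W_eq_eta 9 (by norm_num), discriminant_eq_eta]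
  have n1 := eta_ne_zero' τ.im_pos
  have n3 := eta_ne_zero' (im_three_mul_pos τ.im_pos)
  have n9 := eta_ne_zero' (im_nine_mul_pos τ.im_pos)
  simp only [Q9]
  push_cast
  rw [mul_comm (9 : ℂ) (τ : ℂ), mul_comm (3 : ℂ) (τ : ℂ)] at *
  field_simp

theorem j9_slash_pow (γ : SL(2, ℤ)) (τ : ℍ) :
    (((fun τ : ℍ => Q9 τ) ∣[(2 : ℤ)] γ) τ) ^ 24 * S28.Unit.W 9 (γ • τ) ^ 3 =
      discriminant τ ^ 4 * S28.Unit.W 3 (γ • τ) ^ 10 := by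
  rw [ModularForm.SL_slash_apply]
  have h1 := j9_pow (γ • τ)
  have h2 := Common.JPoly.discriminant_smul γ τ
  have hd : denom γ τ ≠ 0 := denom_ne_zero _ τ
  have h5 : (denom γ τ) ^ (12 : ℤ) = (denom γ τ) ^ 12 := by norm_cast
  rw [h5] at h2
  rw [h2] at h1
  have h6 : (denom γ τ) ^ (-(2 : ℤ)) = ((denom γ τ) ^ 2)⁻¹ := by
    rw [zpow_neg]; norm_cast
  rw [h6]
  have : (Q9 ((γ • τ : ℍ) : ℂ) * ((denom γ τ) ^ 2)⁻¹) ^ 24 * S28.Unit.W 9 (γ • τ) ^ 3 =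
      (Q9 ((γ • τ : ℍ) : ℂ) ^ 24 * S28.Unit.W 9 (γ • τ) ^ 3) * ((denom γ τ) ^ 48)⁻¹ := by
    ring
  rw [this, h1]
  field_simp

theorem j9_cases {c : ℤ} {a₃ e₃ a₉ e₉ : ℕ} (h3 : a₃ * e₃ = 3) (h9 : a₉ * e₉ = 9)
    (g3 : a₃ = Int.gcd (3 : ℕ) c) (g9 : a₉ = Int.gcd (9 : ℕ) c) :
    (a₃ = 1 ∧ e₃ = 3 ∧ a₉ = 1 ∧ e₉ = 9) ∨ (a₃ = 3 ∧ e₃ = 1 ∧ a₉ = 3 ∧ e₉ = 3) ∨
      (a₃ = 3 ∧ e₃ = 1 ∧ a₉ = 9 ∧ e₉ = 1) := by
  have h : a₃ = Nat.gcd 3 a₉ := by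
    rw [g3, g9, Int.gcd, Int.gcd, ← Nat.gcd_assoc]
    rfl
  have hle : a₉ ≤ 9 := Nat.le_of_dvd (by norm_num) ⟨e₉, h9.symm⟩
  interval_cases a₉
  · omega
  · left
    have : a₃ = 1 := by rw [h]; rfl
    subst this
    omega
  · omega
  · right; left
    have : a₃ = 3 := by rw [h]; rfl
    subst this
    omega
  · omega
  · omega
  · omega
  · omega
  · omega
  · right; right
    have : a₃ = 3 := by rw [h]; rfl
    subst this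
    omega

theorem j9_exp_le {a₃ e₃ a₉ e₉ : ℕ}
    (h : (a₃ = 1 ∧ e₃ = 3 ∧ a₉ = 1 ∧ e₉ = 9) ∨ (a₃ = 3 ∧ e₃ = 1 ∧ a₉ = 3 ∧ e₉ = 3) ∨
      (a₃ = 3 ∧ e₃ = 1 ∧ a₉ = 9 ∧ e₉ = 1)) {y : ℝ} (hy : 0 < y) :
    Real.exp (-2 * Real.pi * ((a₃ : ℝ) / e₃ * y)) ^ 10 ≤
      Real.exp (-2 * Real.pi * y) ^ 3 * Real.exp (-2 * Real.pi * ((a₉ : ℝ) / e₉ * y)) ^ 3 := by
  rw [← Real.exp_nat_mul, ← Real.exp_nat_mul, ← Real.exp_nat_mul, ← Real.exp_add,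
    Real.exp_le_exp]
  have hp : 0 < Real.pi * y := mul_pos Real.pi_pos hy
  rcases h with ⟨rfl, rfl, rfl, rfl⟩ | ⟨rfl, rfl, rfl, rfl⟩ | ⟨rfl, rfl, rfl, rfl⟩ <;>
    push_cast <;> nlinarith

/-- `Q9 ∣[2] γ` is bounded at `i∞` for every `γ ∈ SL(2,ℤ)`. -/
theorem isBounded_Q9_slash (γ : SL(2, ℤ)) :
    IsBoundedAtImInfty ((fun τ : ℍ => Q9 τ) ∣[(2 : ℤ)] γ) := by
  obtain ⟨a₃, e₃, ia₃, ie₃, b₃, h3, g3, t3⟩ := W_smul_asymp 3 γ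
  obtain ⟨a₉, e₉, ia₉, ie₉, b₉, h9, g9, t9⟩ := W_smul_asymp 9 γ
  have hc := j9_cases h3 h9 g3 g9
  have t1 := S24.discriminant_div_q_tendsto
  have he₉ : (((e₉ : ℂ)⁻¹) ^ 12) ^ 3 ≠ 0 :=
    pow_ne_zero _ (pow_ne_zero _ (inv_ne_zero (by exact_mod_cast NeZero.ne e₉)))
  have tF := ((t1.pow 4).mul (t3.pow 10)).div (t9.pow 3) he₉
  have hev := tF.norm.eventually (Iio_mem_nhds (lt_add_one _))
  set C : ℝ := ‖1 ^ 4 * (((e₃ : ℂ)⁻¹) ^ 12) ^ 10 / (((e₉ : ℂ)⁻¹) ^ 12) ^ 3‖ + 1 with hC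
  have hC1 : 1 ≤ C := le_add_of_nonneg_left (norm_nonneg _)
  refine Asymptotics.IsBigO.of_bound C ?_
  filter_upwards [hev] with τ hτ
  simp only [Pi.one_apply, norm_one, mul_one]
  set f := ((fun τ : ℍ => Q9 τ) ∣[(2 : ℤ)] γ) τ with hf
  set q := Function.Periodic.qParam 1 (τ : ℂ) with hq
  set q₃ := Function.Periodic.qParam 1 ((S28.tri a₃ e₃ b₃ τ : ℍ) : ℂ) with hq₃
  set q₉ := Function.Periodic.qParam 1 ((S28.tri a₉ e₉ b₉ τ : ℍ) : ℂ) with hq₉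
  have n0 : q ≠ 0 := Function.Periodic.qParam_ne_zero _
  have n3 : q₃ ≠ 0 := Function.Periodic.qParam_ne_zero _
  have n9 : q₉ ≠ 0 := Function.Periodic.qParam_ne_zero _
  have w9 := j4_W_ne_zero 9 (γ • τ)
  have key := j9_slash_pow γ τ
  rw [← hf] at key
  have e1 : f ^ 24 = ((discriminant τ / q) ^ 4 * (S28.Unit.W 3 (γ • τ) * q / q₃) ^ 10 /
      (S28.Unit.W 9 (γ • τ) * q / q₉) ^ 3) * (q₃ ^ 10 / (q ^ 3 * q₉ ^ 3)) := by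
    have : f ^ 24 = discriminant τ ^ 4 * S28.Unit.W 3 (γ • τ) ^ 10 / S28.Unit.W 9 (γ • τ) ^ 3 := by
      rw [← key]; field_simp
    rw [this]
    field_simp
  have e2 : ‖q₃ ^ 10 / (q ^ 3 * q₉ ^ 3)‖ ≤ 1 := by
    rw [norm_div, norm_mul, norm_pow, norm_pow, norm_pow, hq, hq₃, hq₉, j4_norm_q_tri,
      j4_norm_q_tri, j4_norm_q]
    exact div_le_one_of_le₀ (j9_exp_le hc τ.im_pos) (by positivity)
  have e3 : ‖f‖ ^ 24 ≤ C := by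
    rw [← norm_pow, e1, norm_mul]
    calc _ ≤ C * 1 := mul_le_mul (le_of_lt hτ) e2 (norm_nonneg _) (by linarith)
      _ = C := mul_one C
  by_contra hcon
  rw [not_le] at hcon
  have h1 : 1 < ‖f‖ := lt_of_le_of_lt hC1 hcon
  have h2 : ‖f‖ ≤ ‖f‖ ^ 24 := le_self_pow₀ h1.le (by norm_num)
  linarith

theorem j9_eq_ofDisc : (fun τ : ℍ => Q9 τ) = ofDisc phiQ9 := by
  funext τ
  rw [ofDisc, Q9_eq_phiQ9]

theorem j9_slash_eq (γ : SL(2, ℤ)) (hγ : γ ∈ Gamma0 9) :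
    (fun τ : ℍ => Q9 τ) ∣[(2 : ℤ)] γ = fun τ : ℍ => Q9 τ := by
  have h9 : (9 : ℤ) ∣ γ 1 0 := by
    rw [Gamma0_mem] at hγ
    exact_mod_cast (ZMod.intCast_zmod_eq_zero_iff_dvd _ _).mp hγ
  funext τ
  rw [ModularForm.SL_slash_apply, Q9_smul γ h9 τ]
  have hd : denom γ τ = cd γ τ := by
    rw [ModularGroup.denom_apply]; rfl
  have hne := cd_ne_zero γ τ
  have h6 : (cd γ τ) ^ (-(2 : ℤ)) = ((cd γ τ) ^ 2)⁻¹ := by
    rw [zpow_neg]; norm_cast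
  rw [hd, h6]
  field_simp

theorem j9_mdiff : MDiff (fun τ : ℍ => Q9 τ) := by
  rw [j9_eq_ofDisc]
  exact mdiff_ofDisc diffOn_phiQ9

theorem j9_psi : ModularCurve.dedekindPsi 9 = 12 := by
  decide +kernel

/-- `Q9` as a modular form. -/
def Q9Form : ModularForm (Gamma0 9) 2 where
  toFun := fun τ : ℍ => Q9 τ
  slash_action_eq' := by
    rintro _ ⟨γ, hγ, rfl⟩
    exact j9_slash_eq γ hγ
  holo' := j9_mdiff
  bdd_at_cusps' := by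
    intro c hc
    rw [OnePoint.isBoundedAt_iff_forall_SL2Z
      ((Subgroup.IsArithmetic.isCusp_iff_isCusp_SL2Z _).mp hc)]
    intro γ _
    exact isBounded_Q9_slash γ

theorem tay_phiQ9 : tay phiQ9 = q9ser.map (Int.castRingHom ℂ) := by
  have a1 := analyticAt_of_diffOn diffOn_eulerP
  have a3 := analyticAt_of_diffOn (diffOn_comp_pow diffOn_eulerP (d := 3) (by norm_num))
  have a9 := analyticAt_of_diffOn (diffOn_comp_pow diffOn_eulerP (d := 9) (by norm_num))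
  have key : tay (phiQ9 * (eulerP ^ 3 * (fun q => eulerP (q ^ 9)) ^ 3))
      = tay ((fun q => eulerP (q ^ 3)) ^ 10) := by
    apply tay_congr
    filter_upwards [Metric.ball_mem_nhds (0 : ℂ) one_pos] with q hq
    have h1 := eulerP_ne_zero hq
    have h9 := eulerP_ne_zero (pow_mem_ball hq (d := 9) (by norm_num))
    simp only [Pi.mul_apply, Pi.pow_apply, phiQ9]
    field_simp
  rw [tay_mul (analyticAt_of_diffOn diffOn_phiQ9) ((a1.pow 3).mul (a9.pow 3)),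
    tay_mul (a1.pow 3) (a9.pow 3), tay_pow a1, tay_pow a9, tay_pow a3, tay_eulerP_one,
    tay_eulerP_pow 9 (by norm_num), tay_eulerP_pow 3 (by norm_num)] at key
  have hc : PowerSeries.constantCoeff (eS 1 ^ 3 * eS 9 ^ 3) = 1 := by simp [constantCoeff_eS]
  have hne := map_ne_zero_of_const hc
  apply mul_right_cancel₀ hne
  have e : q9ser * (eS 1 ^ 3 * eS 9 ^ 3) = eS 3 ^ 10 := by
    unfold q9ser
    calc eS 3 ^ 10 * ((eS 1 ^ 3).invOfUnit 1 * (eS 9 ^ 3).invOfUnit 1) * (eS 1 ^ 3 * eS 9 ^ 3)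
        = eS 3 ^ 10 * ((eS 1 ^ 3 * (eS 1 ^ 3).invOfUnit 1) * (eS 9 ^ 3 * (eS 9 ^ 3).invOfUnit 1)) := by
          ring
      _ = eS 3 ^ 10 := by rw [eS_pow_mul_invOfUnit, eS_pow_mul_invOfUnit, one_mul, mul_one]
  rw [← map_mul, e, map_mul, map_pow, map_pow, map_pow]
  exact key

theorem qExpansion_Q9Form : qExpansion 1 Q9Form = S16.toC q9ser := by
  have h : (⇑Q9Form : ℍ → ℂ) = ofDisc phiQ9 := j9_eq_ofDisc
  rw [h, qExpansion_ofDisc (continuousAt_of_diffOn diffOn_phiQ9), tay_phiQ9]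

theorem isQ_Q9 : S16.IsQ 9 2 q9ser := ⟨Q9Form, qExpansion_Q9Form⟩

/-- **[JAC9]** -/
theorem jac9 : C 8 * q9ser = S16.eisZ 9 := by
  have h : S16.IsQ 9 2 (C 8 * q9ser - S16.eisZ 9) := (isQ_Q9.C_mul 8).sub (S16.isQ_eisZ 9)
  have hidx : (Gamma0 9).index = 12 := by
    rw [S20.P1.index_Gamma0, j9_psi]
  refine sub_eq_zero.mp (h.eq_zero_of_sturm fun n hn => ?_)
  rw [hidx] at hn
  have hn1 : n ≤ 2 := by
    have : ((2 : ℤ) * ((12 : ℕ) : ℤ)).toNat / 12 = 2 := by decide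
    omega
  rw [map_sub, coeff_C_mul, S16.coeff_eisZ]
  interval_cases n
  · rw [coeff_zero_eq_constantCoeff_apply, constantCoeff_q9ser]
    simp
  · rw [coeff_one_q9ser]
    simp
  · rw [coeff_two_q9ser, if_neg (by norm_num), if_neg (by norm_num)]
    have : ArithmeticFunction.sigma 1 2 = 3 := by decide
    rw [this]
    norm_num

/-- `D t = - t Q`, `Q = G² U`, in terms of `ψ = T t`. -/
theorem thD_psi9 : thD psi9 - psi9 = - (psi9 * (G9ser ^ 2 * u9ser)) := by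
  rw [← q9ser_eq]
  exact thD_psi9_of jac9

end Fermat.Agent.S45.L9
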