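import Fermat.Agent.S45.Haupt9.EtaU
import Fermat.Agent.S45.Haupt9.Jac9

/-!
# S45 / [HAUPT9] : `h₉(dτ)`, `U₉(dτ)` as elements of the function field of `X₀(N)`, `9 d ∣ N`

* `hFD9 d N hd`, `uFD9 d N hd : FN N` with expansions `qExpand Kb d (castLS Kb hSer9)`, `qExpand Kb d (castLS Kb uSer9)`;
  the inverses have the expansions `tSer9`, `vSer9`;  all four are integral over `Kb[j]`;
* `thD_psi9` (`Haupt9/Jac9.lean`) : `θ ψ - ψ = - ψ (G9ser² u9ser)`, `ψ = psi9 = T t`, i.e. `D h₉ = h₉ G₉² U₉`.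
-/

set_option autoImplicit false
set_option linter.unusedSectionVars false

open Complex Function Filter ModularForm ModularCurve
open UpperHalfPlane hiding I
open scoped Real MatrixGroups Manifold Topology
open Fermat.Agent.S24 Fermat.Agent.S28

noncomputable section

namespace Fermat.Agent.S45.L9

open Fermat.Agent.S36

theorem tay_phiH9 : tay phiH9 = (PowerSeries.X * psi9inv).map (Int.castRingHom ℂ) := by
  have a1 := analyticAt_of_diffOn diffOn_eulerP
  have a9 := analyticAt_of_diffOn (diffOn_comp_pow diffOn_eulerP (d := 9) (by norm_num))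
  have aid : AnalyticAt ℂ (fun q : ℂ => q) 0 := analyticAt_id
  have key : tay (phiH9 * eulerP ^ 3) = tay ((fun q : ℂ => q) * (fun q => eulerP (q ^ 9)) ^ 3) := by
    apply tay_congr
    filter_upwards [Metric.ball_mem_nhds (0 : ℂ) one_pos] with q hq
    have h1 := eulerP_ne_zero hq
    simp only [Pi.mul_apply, Pi.pow_apply, phiH9]
    field_simp
  rw [tay_mul (analyticAt_of_diffOn diffOn_phiH9) (a1.pow 3), tay_mul aid (a9.pow 3), tay_pow a1,
    tay_pow a9, tay_id, tay_eulerP_one, tay_eulerP_pow 9 (by norm_num)] at key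
  have hc : PowerSeries.constantCoeff (eS 1 ^ 3) = 1 := by simp [constantCoeff_eS]
  have hne := map_ne_zero_of_const hc
  apply mul_right_cancel₀ hne
  rw [map_pow, key, psi9inv, ← map_pow, ← map_pow, map_mul, map_mul, PowerSeries.map_X, mul_assoc,
    mul_assoc, ← map_mul, mul_comm ((eS 1 ^ 3).invOfUnit 1),
    PowerSeries.mul_invOfUnit _ 1 (by rw [hc]; rfl), map_one, mul_one]

theorem tay_phiU9 : tay phiU9 = u9ser.map (Int.castRingHom ℂ) := by
  have a1 := analyticAt_of_diffOn diffOn_eulerP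
  have a3 := analyticAt_of_diffOn (diffOn_comp_pow diffOn_eulerP (d := 3) (by norm_num))
  have a9 := analyticAt_of_diffOn (diffOn_comp_pow diffOn_eulerP (d := 9) (by norm_num))
  have key : tay (phiU9 * (eulerP ^ 9 * (fun q => eulerP (q ^ 9)) ^ 3))
      = tay ((fun q => eulerP (q ^ 3)) ^ 12) := by
    apply tay_congr
    filter_upwards [Metric.ball_mem_nhds (0 : ℂ) one_pos] with q hq
    have h1 := eulerP_ne_zero hq
    have h9 := eulerP_ne_zero (pow_mem_ball hq (d := 9) (by norm_num))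
    simp only [Pi.mul_apply, Pi.pow_apply, phiU9]
    field_simp
  rw [tay_mul (analyticAt_of_diffOn diffOn_phiU9) ((a1.pow 9).mul (a9.pow 3)),
    tay_mul (a1.pow 9) (a9.pow 3), tay_pow a1, tay_pow a9, tay_pow a3, tay_eulerP_one,
    tay_eulerP_pow 9 (by norm_num), tay_eulerP_pow 3 (by norm_num)] at key
  have hc : PowerSeries.constantCoeff (eS 1 ^ 9 * eS 9 ^ 3) = 1 := by simp [constantCoeff_eS]
  have hne := map_ne_zero_of_const hc
  apply mul_right_cancel₀ hne
  have e : u9ser * (eS 1 ^ 9 * eS 9 ^ 3) = eS 3 ^ 12 := by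
    unfold u9ser
    calc eS 3 ^ 12 * ((eS 1 ^ 9).invOfUnit 1 * (eS 9 ^ 3).invOfUnit 1) * (eS 1 ^ 9 * eS 9 ^ 3)
        = eS 3 ^ 12 * ((eS 1 ^ 9 * (eS 1 ^ 9).invOfUnit 1) * (eS 9 ^ 3 * (eS 9 ^ 3).invOfUnit 1)) := by
          ring
      _ = eS 3 ^ 12 := by rw [eS_pow_mul_invOfUnit, eS_pow_mul_invOfUnit, one_mul, mul_one]
  rw [← map_mul, e, map_mul, map_pow, map_pow, map_pow]
  exact key

/-- the Hauptmodul `h₉ = η(9τ)³/η(τ)³`. -/
def etaH9 : EtaU 9 where
  E := H9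
  ne := H9_ne_zero
  smul := fun g hg τ => H9_smul g (by exact_mod_cast hg) τ
  φ := phiH9
  eq := H9_eq_phiH9
  diff := diffOn_phiH9
  ser := PowerSeries.X * psi9inv
  tay_eq := tay_phiH9
  k := 8
  hk := by norm_num
  X := fun d => S28.Unit.W (9 * d) / S28.Unit.W d
  pow_eq := fun d _ τ => by
    rw [H9_pow_eight, W_scal]
    rfl
  allU := fun {d N} _ hd => (allU_W hd).div (allU_W ((Dvd.intro_left 9 rfl).trans hd))

/-- the unit `U₉ = η(3τ)^12/(η(τ)^9 η(9τ)^3)`. -/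
def etaU9 : EtaU 9 where
  E := U9
  ne := U9_ne_zero
  smul := fun g hg τ => U9_smul g (by exact_mod_cast hg) τ
  φ := phiU9
  eq := U9_eq_phiU9
  diff := diffOn_phiU9
  ser := u9ser
  tay_eq := tay_phiU9
  k := 8
  hk := by norm_num
  X := fun d => (S28.Unit.W (3 * d) / S28.Unit.W d) ^ 4 / (S28.Unit.W (9 * d) / S28.Unit.W d)
  pow_eq := fun d _ τ => by
    rw [U9_pow_eight, W_scal, W_scal]
    rfl
  allU := fun {d N} _ hd => by
    have h1 : d ∣ N := (Dvd.intro_left 9 rfl).trans hd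
    have h3 : 3 * d ∣ N := (Nat.mul_dvd_mul_right (by norm_num : 3 ∣ 9) d).trans hd
    exact (((allU_W h3).div (allU_W h1)).pow 4).div ((allU_W hd).div (allU_W h1))

/-- the formal expansion of `h₉`. -/
def hSer9 : LaurentSeries ℤ := HahnSeries.ofPowerSeries ℤ ℤ (PowerSeries.X * psi9inv)

/-- the formal expansion of `t₉ = 1/h₉`. -/
def tSer9 : LaurentSeries ℤ := HahnSeries.single (-1) 1 * HahnSeries.ofPowerSeries ℤ ℤ psi9

/-- the formal expansion of `U₉`. -/
def uSer9 : LaurentSeries ℤ := HahnSeries.ofPowerSeries ℤ ℤ u9ser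

/-- the formal expansion of `1/U₉`. -/
def vSer9 : LaurentSeries ℤ := HahnSeries.ofPowerSeries ℤ ℤ u9inv

theorem tSer9_mul_hSer9 : tSer9 * hSer9 = 1 := by
  rw [tSer9, hSer9, map_mul, HahnSeries.ofPowerSeries_X]
  calc HahnSeries.single (-1 : ℤ) (1 : ℤ) * HahnSeries.ofPowerSeries ℤ ℤ psi9 *
        (HahnSeries.single 1 1 * HahnSeries.ofPowerSeries ℤ ℤ psi9inv)
      = (HahnSeries.single (-1 : ℤ) (1 : ℤ) * HahnSeries.single 1 1) *
        HahnSeries.ofPowerSeries ℤ ℤ (psi9 * psi9inv) := by rw [map_mul]; ring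
    _ = 1 := by
        rw [psi9_mul_inv, (HahnSeries.ofPowerSeries ℤ ℤ).map_one, mul_one,
          HahnSeries.single_mul_single]
        simp

theorem vSer9_mul_uSer9 : vSer9 * uSer9 = 1 := by
  rw [vSer9, uSer9, ← map_mul, mul_comm, u9ser_mul_inv, map_one]

variable (d : ℕ) [NeZero d] (N : ℕ) [NeZero N] (hd : 9 * d ∣ N)

/-- `h₉(dτ)` as an element of the function field of `X₀(N)`. -/
def hFD9 : FN N := etaH9.el d N hd

/-- `U₉(dτ)` as an element of the function field of `X₀(N)`. -/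
def uFD9 : FN N := etaU9.el d N hd

@[simp] theorem coe_hFD9 : (hFD9 d N hd : LaurentSeries Kb) = qExpand Kb d (castLS Kb hSer9) := rfl

@[simp] theorem coe_uFD9 : (uFD9 d N hd : LaurentSeries Kb) = qExpand Kb d (castLS Kb uSer9) := rfl

theorem coe_hFD9_inv :
    (((hFD9 d N hd)⁻¹ : FN N) : LaurentSeries Kb) = qExpand Kb d (castLS Kb tSer9) :=
  etaH9.coe_el_inv d N hd tSer9_mul_hSer9

theorem coe_uFD9_inv :
    (((uFD9 d N hd)⁻¹ : FN N) : LaurentSeries Kb) = qExpand Kb d (castLS Kb vSer9) :=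
  etaU9.coe_el_inv d N hd vSer9_mul_uSer9

theorem hFD9_ne_zero : hFD9 d N hd ≠ 0 := etaH9.el_ne_zero d N hd tSer9_mul_hSer9

theorem uFD9_ne_zero : uFD9 d N hd ≠ 0 := etaU9.el_ne_zero d N hd vSer9_mul_uSer9

theorem isIntegral_hFD9 : IsIntegral (Algebra.adjoin Kb {jF N}) (hFD9 d N hd) :=
  etaH9.isIntegral_el d N hd

theorem isIntegral_hFD9_inv : IsIntegral (Algebra.adjoin Kb {jF N}) (hFD9 d N hd)⁻¹ :=
  etaH9.isIntegral_el_inv d N hd

theorem isIntegral_uFD9 : IsIntegral (Algebra.adjoin Kb {jF N}) (uFD9 d N hd) :=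
  etaU9.isIntegral_el d N hd

theorem isIntegral_uFD9_inv : IsIntegral (Algebra.adjoin Kb {jF N}) (uFD9 d N hd)⁻¹ :=
  etaU9.isIntegral_el_inv d N hd

/-- `h₉` as an element of the function field of `X₀(M)`, `9 ∣ M`. -/
def hF9 (M : ℕ) [NeZero M] (h9 : 9 ∣ M) : FN M := hFD9 1 M (by simpa using h9)

/-- `U₉` as an element of the function field of `X₀(M)`, `9 ∣ M`. -/
def uF9 (M : ℕ) [NeZero M] (h9 : 9 ∣ M) : FN M := uFD9 1 M (by simpa using h9)

@[simp] theorem coe_hF9 (M : ℕ) [NeZero M] (h9 : 9 ∣ M) :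
    (hF9 M h9 : LaurentSeries Kb) = castLS Kb hSer9 := by
  rw [hF9, coe_hFD9, qExpand_one_apply]

@[simp] theorem coe_uF9 (M : ℕ) [NeZero M] (h9 : 9 ∣ M) :
    (uF9 M h9 : LaurentSeries Kb) = castLS Kb uSer9 := by
  rw [uF9, coe_uFD9, qExpand_one_apply]

end Fermat.Agent.S45.L9
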